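import Mathlib
import Fermat.Prelude.Def_FLTPrelim_Modularity

/-!
# P-DS (Deligne–Serre, S48): interfaces for blocks (2) and (4)   (sub-lead helper6)

Block (4): the elementary Rankin bound.  Block (2): Hecke's weight-one Eisenstein series via the
Weierstrass zeta function, and the congruence "weight 1 ≡ weight 2 of level `N ℓ` modulo `λ ∣ ℓ`".

Everything here is a definition or a `Prop`-valued statement; the proofs live in the modules named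
in the `subtasks` rows `DS-2*`, `DS-4*` (project `P-DS`).
-/

set_option autoImplicit false

open UpperHalfPlane CongruenceSubgroup ModularFormClass
open scoped MatrixGroups ModularForm

namespace Fermat.Agent.H6.DS

/-! ## Block (4): Rankin bound -/

/-- The formal Hecke relations of S48 for a sequence `a` (character values `ε p`, level `N`). -/
def HeckeRel (N : ℕ) (ε : ℕ → ℂ) (a : ℕ → ℂ) : Prop :=
  a 1 = 1 ∧ ∀ p : ℕ, p.Prime → ¬ p ∣ N → ∀ n : ℕ,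
    a (p * n) + ε p * (if p ∣ n then a (n / p) else 0) = a p * a n

/-- `∑_{n ≤ x} ‖a n‖² ≤ C x` for all `x`. -/
def MeanSquareBound (a : ℕ → ℂ) (C : ℝ) : Prop :=
  ∀ x : ℕ, ∑ n ∈ Finset.range (x + 1), ‖a n‖ ^ 2 ≤ C * x

/-- `∑_{1 ≤ n ≤ M} ‖a n‖² n^{-s} ≤ C / (s - 1)` for `1 < s < 2` and all `M`. -/
def DirichletBound (a : ℕ → ℂ) (C : ℝ) : Prop :=
  ∀ s : ℝ, 1 < s → s < 2 → ∀ M : ℕ,
    ∑ n ∈ Finset.Icc 1 M, ‖a n‖ ^ 2 * (n : ℝ) ^ (-s) ≤ C / (s - 1)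

/-- `∑_{p ∈ P} log (1 + ‖a p‖² p^{-s}) ≤ log (1/(s-1)) + C` for `1 < s < 2` and every finite set
`P` of primes not dividing `N`. -/
def EulerLogBound (N : ℕ) (a : ℕ → ℂ) (C : ℝ) : Prop :=
  ∀ s : ℝ, 1 < s → s < 2 → ∀ P : Finset ℕ, (∀ p ∈ P, p.Prime ∧ ¬ p ∣ N) →
    ∑ p ∈ P, Real.log (1 + ‖a p‖ ^ 2 * (p : ℝ) ^ (-s)) ≤ Real.log (1 / (s - 1)) + C

/-- `∑_{p ∈ P} min (‖a p‖² p^{-s}) 1 ≤ c (log (1/(s-1)) + C)`. -/
def MinBound (N : ℕ) (a : ℕ → ℂ) (c C : ℝ) : Prop :=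
  ∀ s : ℝ, 1 < s → s < 2 → ∀ P : Finset ℕ, (∀ p ∈ P, p.Prime ∧ ¬ p ∣ N) →
    ∑ p ∈ P, min (‖a p‖ ^ 2 * (p : ℝ) ^ (-s)) 1 ≤ c * (Real.log (1 / (s - 1)) + C)

/-- `∑_{p ∈ P} ‖a p‖² p^{-s} ≤ log (1/(s-1)) + C` (sharp constant `1`). -/
def SharpBound (N : ℕ) (a : ℕ → ℂ) (C : ℝ) : Prop :=
  ∀ s : ℝ, 1 < s → s < 2 → ∀ P : Finset ℕ, (∀ p ∈ P, p.Prime ∧ ¬ p ∣ N) →
    ∑ p ∈ P, ‖a p‖ ^ 2 * (p : ℝ) ^ (-s) ≤ Real.log (1 / (s - 1)) + C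

/-- Upper Dirichlet density `≤ d`, with `O(1)` error term, on finite partial sums. -/
def UpperDensityLE (X : Set ℕ) (d : ℝ) : Prop :=
  ∃ C : ℝ, ∀ s : ℝ, 1 < s → s < 2 → ∀ P : Finset ℕ, (∀ p ∈ P, p.Prime ∧ p ∈ X) →
    ∑ p ∈ P, (p : ℝ) ^ (-s) ≤ d * Real.log (1 / (s - 1)) + C

/-- (DS-4A) Parseval/Bessel + the cusp-form bound `‖f τ‖ ≤ C (im τ)^{-1/2}`. -/
def ParsevalStatement : Prop :=
  ∀ (N : ℕ) [NeZero N] (f : CuspForm (Gamma1 N) 1),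
    ∃ C : ℝ, MeanSquareBound (fun n => qCoeff f n) C

/-- (DS-4B) partial summation. -/
def DirichletBoundStatement : Prop :=
  ∀ (a : ℕ → ℂ) (C : ℝ), MeanSquareBound a C → ∃ C' : ℝ, DirichletBound a C'

/-- (DS-4C) finite Euler products of a multiplicative nonnegative sequence. -/
def EulerStatement : Prop :=
  ∀ (N : ℕ) (ε : ℕ → ℂ) (a : ℕ → ℂ) (C : ℝ), HeckeRel N ε a → DirichletBound a C →
    ∃ C' : ℝ, EulerLogBound N a C'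

/-- (DS-4D) `log (1 + t) ≥ (log 2) min t 1`. -/
def MinStatement : Prop :=
  ∀ (N : ℕ) (a : ℕ → ℂ) (C : ℝ), EulerLogBound N a C → MinBound N a (1 / Real.log 2) C

/-- (DS-4D') `log (1 + t) ≥ t - t²/2` and `∑ p^{-2} < ∞`. -/
def SharpStatement : Prop :=
  ∀ (N : ℕ) (a : ℕ → ℂ) (C B : ℝ), EulerLogBound N a C → (∀ p : ℕ, ‖a p‖ ≤ B) →
    ∃ C' : ℝ, SharpBound N a C'

/-- (DS-4E) the finite exceptional set: abstract number-field lemma. -/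
def ExceptionalSetStatement : Prop :=
  ∀ (N : ℕ) (K : Type) [Field K] [NumberField K] (a : ℕ → NumberField.RingOfIntegers K)
    (c C : ℝ),
    (∀ σ : K →+* ℂ, MinBound N (fun n => σ (a n)) c C) →
    ∀ d : ℝ, 0 < d → ∃ Y : Finset (NumberField.RingOfIntegers K),
      UpperDensityLE {p : ℕ | ¬ p ∣ N ∧ a p ∉ Y} d

/-- (DS-4F) OUTPUT of block (4): the Rankin bound for a form as in S48. -/
def RankinStatement : Prop :=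
  ∀ (N : ℕ) [NeZero N] (ε : DirichletCharacter ℂ N) (f : CuspForm (Gamma1 N) 1),
    HeckeRel N (fun p => ε (p : ZMod N)) (fun n => qCoeff f n) →
    ∃ C : ℝ, EulerLogBound N (fun n => qCoeff f n) C

/-! ## Block (2): weight-one Eisenstein series -/

/-- The lattice point `m z + n` for `v = (m, n)`. -/
def latPt (z : ℂ) (v : Fin 2 → ℤ) : ℂ := v 0 * z + v 1

/-- Summand of the Weierstrass zeta function of the lattice `ℤ z + ℤ`. -/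
noncomputable def zetaTerm (z u : ℂ) (v : Fin 2 → ℤ) : ℂ :=
  if v = 0 then 1 / u else 1 / (u - latPt z v) + 1 / latPt z v + u / latPt z v ^ 2

/-- Weierstrass zeta function `ζ(u; ℤ z + ℤ)` (absolutely convergent lattice sum). -/
noncomputable def wzeta (z u : ℂ) : ℂ := ∑' v : Fin 2 → ℤ, zetaTerm z u v

/-- Quasi-period `η(1) = 2 ζ(1/2)`. -/
noncomputable def eta1 (z : ℂ) : ℂ := 2 * wzeta z (1 / 2)

/-- Quasi-period `η(z) = 2 ζ(z/2)`. -/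
noncomputable def etaZ (z : ℂ) : ℂ := 2 * wzeta z (z / 2)

/-- Hecke's weight-one Eisenstein function attached to the `ℓ`-division point
`(a 0 * z + a 1) / ℓ`:  `ζ(u_a) - (a 0 η(z) + a 1 η(1)) / ℓ`. -/
noncomputable def eisOne (ℓ : ℕ) (a : Fin 2 → ℤ) (z : ℂ) : ℂ :=
  wzeta z (latPt z a / ℓ) - (a 0 / ℓ) * etaZ z - (a 1 / ℓ) * eta1 z

/-- `a` is not `0` modulo `ℓ`. -/
def NonzeroMod (ℓ : ℕ) (a : Fin 2 → ℤ) : Prop := ¬ ((ℓ : ℤ) ∣ a 0 ∧ (ℓ : ℤ) ∣ a 1)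

/-- (DS-2A1) summability of the zeta summands. -/
def ZetaSummableStatement : Prop :=
  ∀ z : ℂ, 0 < z.im → ∀ u : ℂ, Summable (fun v : Fin 2 → ℤ => ‖zetaTerm z u v‖)

/-- (DS-2A2) quasi-periodicity of zeta. -/
def ZetaQuasiPeriodStatement : Prop :=
  ∀ z : ℂ, 0 < z.im → ∀ u : ℂ, (∀ v : Fin 2 → ℤ, u ≠ latPt z v) → ∀ w : Fin 2 → ℤ,
    wzeta z (u + latPt z w) = wzeta z u + w 0 * etaZ z + w 1 * eta1 z

/-- (DS-2B1) homogeneity of zeta under `SL(2, ℤ)`. -/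
def ZetaHomogeneityStatement : Prop :=
  ∀ (z : ℍ) (γ : SL(2, ℤ)) (u : ℂ),
    wzeta ((γ • z : ℍ) : ℂ) (u / denom γ z) = denom γ z * wzeta (z : ℂ) u

/-- (DS-2B2) transformation law of `eisOne` and dependence on `a` mod `ℓ` only. -/
def EisOneTransformStatement : Prop :=
  ∀ (ℓ : ℕ) (_ : 2 ≤ ℓ) (a : Fin 2 → ℤ), NonzeroMod ℓ a →
    (∀ (z : ℍ) (γ : SL(2, ℤ)),
      eisOne ℓ a ((γ • z : ℍ) : ℂ) = denom γ z * eisOne ℓ (Matrix.vecMul a (γ : Matrix (Fin 2) (Fin 2) ℤ)) (z : ℂ)) ∧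
    (∀ (z : ℍ) (b : Fin 2 → ℤ), eisOne ℓ (a + (ℓ : ℤ) • b) (z : ℂ) = eisOne ℓ a (z : ℂ))

/-- (DS-2C) holomorphy on the upper half plane. -/
def EisOneHolomorphicStatement : Prop :=
  ∀ (ℓ : ℕ) (_ : 2 ≤ ℓ) (a : Fin 2 → ℤ), NonzeroMod ℓ a →
    DifferentiableOn ℂ (eisOne ℓ a) {z : ℂ | 0 < z.im}

/-- (DS-2D) the cotangent expansion of `ζ(u) - u η(1)` in the strip `|im u| < im z`. -/
def CotExpansionStatement : Prop :=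
  ∀ z : ℂ, 0 < z.im → ∀ u : ℂ, |u.im| < z.im → (∀ n : ℤ, u ≠ n) →
    HasSum (fun m : ℕ => (Real.pi : ℂ) * Complex.cot (Real.pi * (u - (m + 1) * z)) +
        (Real.pi : ℂ) * Complex.cot (Real.pi * (u + (m + 1) * z)))
      (wzeta z u - u * eta1 z - (Real.pi : ℂ) * Complex.cot (Real.pi * u))

/-- The `n`-th coefficient (`n ≥ 1`) of `φ_a = eisOne ℓ (0, a) / (2 π i)`:
`- ∑_{k ∣ n} (ζ^{a k} - ζ^{-a k})`, `ζ = e^{2 π i / ℓ}`. -/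
noncomputable def phiCoeff (ℓ : ℕ) (a : ℤ) (n : ℕ) : ℂ :=
  - ∑ k ∈ n.divisors,
      (Complex.exp (2 * Real.pi * Complex.I * (a * k) / ℓ) -
        Complex.exp (-(2 * Real.pi * Complex.I * (a * k) / ℓ)))

/-- The constant term of `φ_a`: `1/2 + 1/(ζ^a - 1)`. -/
noncomputable def phiConst (ℓ : ℕ) (a : ℤ) : ℂ :=
  1 / 2 + 1 / (Complex.exp (2 * Real.pi * Complex.I * a / ℓ) - 1)

/-- (DS-2E1) `q`-expansion of `eisOne ℓ (0, a)`. -/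
def EisOneQExpStatement : Prop :=
  ∀ (ℓ : ℕ) (_ : 2 ≤ ℓ) (a : ℤ), ¬ (ℓ : ℤ) ∣ a → ∀ z : ℂ, 0 < z.im →
    HasSum (fun n : ℕ => phiCoeff ℓ a (n + 1) *
        Complex.exp (2 * Real.pi * Complex.I * (n + 1) * z))
      (eisOne ℓ ![0, a] z / (2 * Real.pi * Complex.I) - phiConst ℓ a)

/-- (DS-2E2) boundedness at `i∞` of every `eisOne ℓ a`, `a ≢ 0`. -/
def EisOneBoundedStatement : Prop :=
  ∀ (ℓ : ℕ) (_ : 2 ≤ ℓ) (a : Fin 2 → ℤ), NonzeroMod ℓ a →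
    IsBoundedAtImInfty (fun z : ℍ => eisOne ℓ a (z : ℂ))

/-- (DS-2F1) `φ_a` as a modular form of weight one on `Γ₁(ℓ)`, with the action of `Γ₀(ℓ)` and its
`q`-expansion. -/
def PhiFormStatement : Prop :=
  ∀ (ℓ : ℕ) (_ : 2 ≤ ℓ) (a : ℤ), ¬ (ℓ : ℤ) ∣ a →
    ∃ F : ModularForm (Gamma1 ℓ) 1,
      (∀ z : ℍ, F z = eisOne ℓ ![0, a] (z : ℂ) / (2 * Real.pi * Complex.I)) ∧
      qCoeff F 0 = phiConst ℓ a ∧ ∀ n : ℕ, 1 ≤ n → qCoeff F n = phiCoeff ℓ a n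

/-- (DS-2F2) OUTPUT A of block (2): for an odd prime `ℓ` and a residue map `φ` of characteristic
`ℓ` there are `ψ = ω⁻¹` (inverse Teichmüller character w.r.t. `φ`) and `G ∈ M₁(Γ₁(ℓ))` with
nebentypus `ψ`, integral coefficients, `G ≡ 1` modulo `φ`. -/
def EisCongStatement : Prop :=
  ∀ (ℓ : ℕ) [Fact ℓ.Prime], ℓ ≠ 2 → ∀ (κ : Type) [Field κ] [CharP κ ℓ]
    (φ : integralClosure ℤ ℂ →+* κ),
    ∃ (ψ : DirichletCharacter ℂ ℓ) (G : ModularForm (Gamma1 ℓ) 1),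
      (∀ a : ℕ, ¬ ℓ ∣ a → ∃ x : integralClosure ℤ ℂ, (x : ℂ) = ψ (a : ZMod ℓ) ∧ φ x * (a : κ) = 1) ∧
      (∀ γ ∈ Gamma0 ℓ, (G : ℍ → ℂ) ∣[(1 : ℤ)] γ = ψ (((γ 1 1 : ℤ)) : ZMod ℓ) • (G : ℍ → ℂ)) ∧
      (∃ x : integralClosure ℤ ℂ, (x : ℂ) = qCoeff G 0 ∧ φ x = 1) ∧
      (∀ n : ℕ, 1 ≤ n → ∃ x : integralClosure ℤ ℂ, (x : ℂ) = qCoeff G n ∧ φ x = 0)

/-- (DS-2G) OUTPUT B of block (2): a weight-one cusp form with integral coefficients is congruent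
modulo `φ` to a weight-two cusp form of level `N ℓ`, with nebentypus `ε ψ`, `ψ = ω⁻¹`. -/
def CongruenceStatement : Prop :=
  ∀ (N : ℕ) [NeZero N] (f : CuspForm (Gamma1 N) 1),
    (∀ n : ℕ, qCoeff f n ∈ integralClosure ℤ ℂ) →
    ∀ (ℓ : ℕ) [Fact ℓ.Prime], ℓ ≠ 2 → ∀ (κ : Type) [Field κ] [CharP κ ℓ]
      (φ : integralClosure ℤ ℂ →+* κ),
      ∃ (ψ : DirichletCharacter ℂ ℓ) (h : CuspForm (Gamma1 (N * ℓ)) 2),
        (∀ a : ℕ, ¬ ℓ ∣ a → ∃ x : integralClosure ℤ ℂ, (x : ℂ) = ψ (a : ZMod ℓ) ∧ φ x * (a : κ) = 1) ∧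
        (∀ (ε : DirichletCharacter ℂ N),
          (∀ γ ∈ Gamma0 N, (f : ℍ → ℂ) ∣[(1 : ℤ)] γ = ε (((γ 1 1 : ℤ)) : ZMod N) • (f : ℍ → ℂ)) →
          ∀ γ ∈ Gamma0 (N * ℓ), (h : ℍ → ℂ) ∣[(2 : ℤ)] γ =
            (ε (((γ 1 1 : ℤ)) : ZMod N) * ψ (((γ 1 1 : ℤ)) : ZMod ℓ)) • (h : ℍ → ℂ)) ∧
        ∀ n : ℕ, ∃ x y : integralClosure ℤ ℂ,
          (x : ℂ) = qCoeff h n ∧ (y : ℂ) = qCoeff f n ∧ φ x = φ y

end Fermat.Agent.H6.DS
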