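import Fermat.Agent.H6.DS.Interfaces

/-!
# P-DS row DS-2D: the cotangent expansion of the Weierstrass zeta function

`wzeta z u - u * eta1 z = π cot (π u) + ∑_{m ≥ 1} (π cot (π (u - m z)) + π cot (π (u + m z)))`
for `|im u| < im z`, `u ∉ ℤ`.
-/

set_option autoImplicit false

open Complex Filter Topology

namespace Fermat.Agent.H6.DS

local notation "π" => Real.pi

/-- The zeta summand at `v = ![m, n]`. -/
lemma zetaTerm_pair (z u : ℂ) (m n : ℤ) :
    zetaTerm z u ![m, n] = if m = 0 ∧ n = 0 then 1 / u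
      else 1 / (u - (m * z + n)) + 1 / (m * z + n) + u / (m * z + n) ^ 2 := by
  have h : (![m, n] = (0 : Fin 2 → ℤ)) ↔ (m = 0 ∧ n = 0) := by
    constructor
    · intro h
      exact ⟨by simpa using congrFun h 0, by simpa using congrFun h 1⟩
    · rintro ⟨rfl, rfl⟩
      ext i
      fin_cases i <;> rfl
  unfold zetaTerm latPt
  by_cases h0 : m = 0 ∧ n = 0
  · rw [if_pos (h.mpr h0), if_pos h0]
  · rw [if_neg (fun hh => h0 (h.mp hh)), if_neg h0]
    simp

/-- Fubini: rows are summable and the row sums add up to `wzeta`. -/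
lemma hasSum_rows (hS : ZetaSummableStatement) {z : ℂ} (hz : 0 < z.im) (u : ℂ) :
    (∀ m : ℤ, Summable (fun n : ℤ => zetaTerm z u ![m, n])) ∧
    HasSum (fun m : ℤ => ∑' n : ℤ, zetaTerm z u ![m, n]) (wzeta z u) := by
  have h1 : Summable (fun v : Fin 2 → ℤ => zetaTerm z u v) := (hS z hz u).of_norm
  have h2 : HasSum (fun p : ℤ × ℤ => zetaTerm z u ![p.1, p.2]) (wzeta z u) := by
    have := (finTwoArrowEquiv ℤ).symm.hasSum_iff.mpr h1.hasSum
    simpa [Function.comp_def, wzeta] using this
  refine ⟨fun m => h2.summable.prod_factor m, ?_⟩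
  exact h2.prod_fiberwise (fun m => (h2.summable.prod_factor m).hasSum)

lemma mem_integerComplement_of_im_ne_zero {x : ℂ} (hx : x.im ≠ 0) :
    x ∈ Complex.integerComplement := by
  rintro ⟨n, hn⟩
  apply hx
  rw [← hn]
  simp

/-- Symmetric summation of `1/(x - n) + 1/(y + n)` over `n : ℤ`. -/
lemma tsum_int_pair {x y : ℂ} (hx : x ∈ Complex.integerComplement)
    (hy : y ∈ Complex.integerComplement)
    (hs : Summable (fun n : ℤ => 1 / (x - n) + 1 / (y + n))) :
    ∑' n : ℤ, (1 / (x - n) + 1 / (y + n)) = π * cot (π * x) + π * cot (π * y) := by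
  set f : ℤ → ℂ := fun n => 1 / (x - n) + 1 / (y + n) with hf
  have h1 : HasSum (fun n : ℕ => f n + f (-n)) (∑' n, f n + f 0) := hs.hasSum.nat_add_neg
  have h2 := (hasSum_nat_add_iff' 1).mpr h1
  have h3 : HasSum (fun n : ℕ => cotTerm x n + cotTerm y n)
      ((π * cot (π * x) - 1 / x) + (π * cot (π * y) - 1 / y)) := by
    have hx' := (summable_cotTerm hx).hasSum
    have hy' := (summable_cotTerm hy).hasSum
    rw [← cot_series_rep' hx] at hx'
    rw [← cot_series_rep' hy] at hy'
    exact hx'.add hy'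
  have h4 : (fun n : ℕ => (fun n : ℕ => f n + f (-n)) (n + 1)) =
      fun n : ℕ => cotTerm x n + cotTerm y n := by
    funext n
    simp only [hf, cotTerm]
    push_cast
    ring
  rw [h4] at h2
  have h5 := h2.unique h3
  simp only [Finset.range_one, Finset.sum_singleton, hf] at h5
  simp only [Nat.cast_zero, Int.cast_zero, neg_zero, sub_zero, add_zero] at h5
  linear_combination h5


/-- The constant `c_m = ∑_n 1/(m z + n)²`. -/
noncomputable def rowConst (z : ℂ) (m : ℤ) : ℂ := ∑' n : ℤ, 1 / ((m : ℂ) * z + n) ^ 2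

lemma summable_rowConst (z : ℂ) (m : ℤ) :
    Summable (fun n : ℤ => 1 / ((m : ℂ) * z + n) ^ 2) := by
  have := EisensteinSeries.linear_right_summable z m (k := 2) le_rfl
  refine this.congr (fun n => ?_)
  rw [one_div]
  norm_cast

/-- The constant `c_0 = 2 ζ(2)`. -/
noncomputable def rowConstZero : ℂ := ∑' n : ℕ, 2 / ((n : ℂ) + 1) ^ 2

lemma summable_rowConstZero : Summable (fun n : ℕ => 2 / ((n : ℂ) + 1) ^ 2) := by
  have h := summable_rowConst 0 0
  have hinj : Function.Injective (fun n : ℕ => ((n : ℤ) + 1)) := by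
    intro a b hab
    simpa using hab
  have h2 := (h.comp_injective hinj).mul_left 2
  refine h2.congr (fun n => ?_)
  simp only [Function.comp_def]
  push_cast
  ring

/-- Row sum for `m ≠ 0`. -/
lemma row_ne_zero (hS : ZetaSummableStatement) {z : ℂ} (hz : 0 < z.im) {u : ℂ} {m : ℤ}
    (hm : m ≠ 0) (hx : (u - m * z) ∈ Complex.integerComplement)
    (hy : ((m : ℂ) * z) ∈ Complex.integerComplement) :
    ∑' n : ℤ, zetaTerm z u ![m, n] =
      π * cot (π * (u - m * z)) + π * cot (π * (m * z)) + u * rowConst z m := by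
  have hrow := (hasSum_rows hS hz u).1 m
  have hterm : ∀ n : ℤ, zetaTerm z u ![m, n] =
      (1 / ((u - m * z) - n) + 1 / (m * z + n)) + u * (1 / ((m : ℂ) * z + n) ^ 2) := by
    intro n
    rw [zetaTerm_pair, if_neg (fun h => hm h.1)]
    rw [show u - ((m : ℂ) * z + n) = u - m * z - n by ring]
    ring
  have hg : Summable (fun n : ℤ => u * (1 / ((m : ℂ) * z + n) ^ 2)) :=
    (summable_rowConst z m).mul_left u
  have hf : Summable (fun n : ℤ => 1 / ((u - m * z) - n) + 1 / (m * z + n)) := by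
    refine (hrow.sub hg).congr (fun n => ?_)
    rw [hterm]
    ring
  calc ∑' n : ℤ, zetaTerm z u ![m, n]
      = ∑' n : ℤ, ((1 / ((u - m * z) - n) + 1 / (m * z + n)) +
          u * (1 / ((m : ℂ) * z + n) ^ 2)) := tsum_congr hterm
    _ = ∑' n : ℤ, (1 / ((u - m * z) - n) + 1 / (m * z + n)) +
          ∑' n : ℤ, u * (1 / ((m : ℂ) * z + n) ^ 2) := hf.tsum_add hg
    _ = _ := by
      rw [tsum_int_pair hx hy hf, tsum_mul_left, rowConst]

/-- Row sum for `m = 0`. -/
lemma row_zero (hS : ZetaSummableStatement) {z : ℂ} (hz : 0 < z.im) {u : ℂ}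
    (hu : u ∈ Complex.integerComplement) :
    ∑' n : ℤ, zetaTerm z u ![0, n] = π * cot (π * u) + u * rowConstZero := by
  have hrow := (hasSum_rows hS hz u).1 0
  set f : ℤ → ℂ := fun n => zetaTerm z u ![0, n] with hf
  have h1 : HasSum (fun n : ℕ => f n + f (-n)) (∑' n, f n + f 0) := hrow.hasSum.nat_add_neg
  have h2 := (hasSum_nat_add_iff' 1).mpr h1
  have h3 : HasSum (fun n : ℕ => cotTerm u n + u * (2 / ((n : ℂ) + 1) ^ 2))
      ((π * cot (π * u) - 1 / u) + u * rowConstZero) := by
    have hx' := (summable_cotTerm hu).hasSum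
    rw [← cot_series_rep' hu] at hx'
    exact hx'.add (summable_rowConstZero.hasSum.mul_left u)
  have h4 : (fun n : ℕ => (fun n : ℕ => f n + f (-n)) (n + 1)) =
      fun n : ℕ => cotTerm u n + u * (2 / ((n : ℂ) + 1) ^ 2) := by
    funext n
    have hn1 : ((n : ℤ) + 1) ≠ 0 := by omega
    have hn2 : (-((n : ℤ) + 1)) ≠ 0 := by omega
    have hn3 : ((n : ℂ) + 1) ≠ 0 := by exact_mod_cast hn1
    simp only [hf, cotTerm]
    push_cast
    rw [zetaTerm_pair, zetaTerm_pair, if_neg (fun h => hn1 h.2), if_neg (fun h => hn2 h.2)]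
    push_cast
    generalize ((n : ℂ) + 1) = a
    have e1 : u - (0 * z + -a) = u + a := by ring
    have e2 : (1 : ℂ) / (0 * z + -a) = -(1 / a) := by
      rw [zero_mul, zero_add, one_div, one_div, inv_neg]
    have e3 : (0 * z + -a) ^ 2 = a ^ 2 := by ring
    have e4 : (0 * z + a) = a := by ring
    rw [e1, e2, e3, e4]
    ring
  rw [h4] at h2
  have h5 := h2.unique h3
  have hf0 : f 0 = 1 / u := by
    simp only [hf]
    rw [zetaTerm_pair, if_pos ⟨rfl, rfl⟩]
  simp only [Finset.range_one, Finset.sum_singleton, Nat.cast_zero, neg_zero, hf0] at h5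
  linear_combination h5


lemma cot_neg' (x : ℂ) : cot (-x) = -cot x := by
  rw [Complex.cot_eq_cos_div_sin, Complex.cot_eq_cos_div_sin, Complex.cos_neg, Complex.sin_neg,
    div_neg]

/-- The paired cotangent term. -/
noncomputable def cotPair (z u : ℂ) (m : ℕ) : ℂ :=
  π * cot (π * (u - (m + 1) * z)) + π * cot (π * (u + (m + 1) * z))

lemma cotPair_half (z : ℂ) (m : ℕ) : cotPair z (1 / 2) m = 0 := by
  unfold cotPair
  have h1 : (π : ℂ) * (1 / 2 - (m + 1) * z) = π / 2 - π * ((m + 1) * z) := by ring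
  have h2 : (π : ℂ) * (1 / 2 + (m + 1) * z) = π / 2 + π * ((m + 1) * z) := by ring
  rw [h1, h2, Complex.cot_eq_cos_div_sin, Complex.cot_eq_cos_div_sin, Complex.cos_pi_div_two_sub,
    Complex.sin_pi_div_two_sub, Complex.cos_add, Complex.sin_add]
  simp only [Complex.cos_pi_div_two, Complex.sin_pi_div_two]
  ring

lemma cot_pi_half : cot ((π : ℂ) * (1 / 2)) = 0 := by
  rw [show (π : ℂ) * (1 / 2) = π / 2 by ring, Complex.cot_eq_cos_div_sin, Complex.cos_pi_div_two]
  simp

/-- The expansion before removing the quasi-period. -/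
lemma hasSum_star (hS : ZetaSummableStatement) {z : ℂ} (hz : 0 < z.im) {u : ℂ}
    (hu1 : |u.im| < z.im) (hu2 : ∀ n : ℤ, u ≠ n) :
    HasSum (fun k : ℕ => cotPair z u k +
        u * (rowConst z ((k : ℤ) + 1) + rowConst z (-((k : ℤ) + 1))))
      (wzeta z u - π * cot (π * u) - u * rowConstZero) := by
  have hu : u ∈ Complex.integerComplement := by
    rintro ⟨n, hn⟩
    exact hu2 n hn.symm
  set R : ℤ → ℂ := fun m => ∑' n : ℤ, zetaTerm z u ![m, n] with hR
  have h0 : HasSum R (wzeta z u) := (hasSum_rows hS hz u).2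
  have h1 : HasSum (fun k : ℕ => R k + R (-k)) (wzeta z u + R 0) := h0.nat_add_neg
  have h2 := (hasSum_nat_add_iff' 1).mpr h1
  have hR0 : R 0 = π * cot (π * u) + u * rowConstZero := row_zero hS hz hu
  have hlt := abs_lt.mp hu1
  have h4 : (fun k : ℕ => (fun k : ℕ => R k + R (-k)) (k + 1)) =
      fun k : ℕ => cotPair z u k +
        u * (rowConst z ((k : ℤ) + 1) + rowConst z (-((k : ℤ) + 1))) := by
    funext k
    have hk : (0 : ℝ) ≤ k := Nat.cast_nonneg k
    have hm1 : ((k : ℤ) + 1) ≠ 0 := by omega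
    have hm2 : (-((k : ℤ) + 1)) ≠ 0 := by omega
    have hkz : 0 ≤ (k : ℝ) * z.im := mul_nonneg hk hz.le
    have hx1 : (u - (((k : ℤ) + 1 : ℤ) : ℂ) * z) ∈ Complex.integerComplement := by
      apply mem_integerComplement_of_im_ne_zero
      have : (u - (((k : ℤ) + 1 : ℤ) : ℂ) * z).im = u.im - ((k : ℝ) + 1) * z.im := by
        simp [Complex.sub_im, Complex.mul_im]
      rw [this]
      nlinarith [hlt.1, hlt.2]
    have hy1 : ((((k : ℤ) + 1 : ℤ) : ℂ) * z) ∈ Complex.integerComplement := by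
      apply mem_integerComplement_of_im_ne_zero
      have : ((((k : ℤ) + 1 : ℤ) : ℂ) * z).im = ((k : ℝ) + 1) * z.im := by
        simp [Complex.mul_im]
      rw [this]
      nlinarith [hlt.1, hlt.2]
    have hx2 : (u - ((-((k : ℤ) + 1) : ℤ) : ℂ) * z) ∈ Complex.integerComplement := by
      apply mem_integerComplement_of_im_ne_zero
      have : (u - ((-((k : ℤ) + 1) : ℤ) : ℂ) * z).im = u.im + ((k : ℝ) + 1) * z.im := by
        simp [Complex.sub_im, Complex.mul_im]
        ring
      rw [this]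
      nlinarith [hlt.1, hlt.2]
    have hy2 : (((-((k : ℤ) + 1) : ℤ) : ℂ) * z) ∈ Complex.integerComplement := by
      apply mem_integerComplement_of_im_ne_zero
      have : (((-((k : ℤ) + 1) : ℤ) : ℂ) * z).im = -(((k : ℝ) + 1) * z.im) := by
        simp [Complex.mul_im]
        ring
      rw [this]
      nlinarith [hlt.1, hlt.2]
    have e1 := row_ne_zero hS hz hm1 hx1 hy1
    have e2 := row_ne_zero hS hz hm2 hx2 hy2
    simp only [hR]
    push_cast
    rw [e1, e2]
    unfold cotPair
    push_cast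
    have e3 : (π : ℂ) * (-((k : ℂ) + 1) * z) = -(π * (((k : ℂ) + 1) * z)) := by ring
    have e4 : u - -((k : ℂ) + 1) * z = u + ((k : ℂ) + 1) * z := by ring
    rw [e3, cot_neg', e4]
    ring
  rw [h4] at h2
  have hval : wzeta z u - π * cot (π * u) - u * rowConstZero =
      wzeta z u + R 0 - ∑ i ∈ Finset.range 1, (R (i : ℤ) + R (-(i : ℤ))) := by
    simp only [Finset.range_one, Finset.sum_singleton, Nat.cast_zero, neg_zero, hR0]
    ring
  rw [hval]
  exact h2

/-- **DS-2D**: the cotangent expansion of `wzeta z u - u * eta1 z`. -/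
theorem cotExpansion (hS : ZetaSummableStatement) : CotExpansionStatement := by
  intro z hz u hu1 hu2
  have A := hasSum_star hS hz hu1 hu2
  have hhalf1 : |((1 : ℂ) / 2).im| < z.im := by
    have : ((1 : ℂ) / 2).im = 0 := by simp
    rw [this, abs_zero]
    exact hz
  have hhalf2 : ∀ n : ℤ, ((1 : ℂ) / 2) ≠ n := by
    intro n hn
    have h := congrArg Complex.re hn
    have h1 : ((1 : ℂ) / 2).re = 1 / 2 := by simp
    rw [h1] at h
    simp only [Complex.intCast_re] at h
    have h2 : (2 : ℝ) * (n : ℝ) = 1 := by linarith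
    have h3 : (2 : ℤ) * n = 1 := by exact_mod_cast h2
    omega
  have B := hasSum_star hS hz hhalf1 hhalf2
  simp only [cotPair_half, zero_add, cot_pi_half, mul_zero, sub_zero] at B
  have B' := B.mul_left (2 * u)
  have C := A.sub B'
  have hfun : (fun k : ℕ => cotPair z u k +
        u * (rowConst z ((k : ℤ) + 1) + rowConst z (-((k : ℤ) + 1))) -
      2 * u * (1 / 2 * (rowConst z ((k : ℤ) + 1) + rowConst z (-((k : ℤ) + 1))))) =
      fun m : ℕ => (π : ℂ) * Complex.cot (π * (u - (m + 1) * z)) +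
        (π : ℂ) * Complex.cot (π * (u + (m + 1) * z)) := by
    funext k
    unfold cotPair
    ring
  rw [hfun] at C
  have hval : wzeta z u - u * eta1 z - π * cot (π * u) =
      (wzeta z u - π * cot (π * u) - u * rowConstZero) -
        2 * u * (wzeta z (1 / 2) - 1 / 2 * rowConstZero) := by
    unfold eta1
    ring
  rw [hval]
  exact C

end Fermat.Agent.H6.DS
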