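import Fermat.Agent.H6.DS.Interfaces
import Fermat.Agent.H20.DS.Interfaces

/-!
# P-DS, DS-1a (`ConjStatement`) via the weight-one Eisenstein series of block (2)

Route (helper6): for `f ∈ S₁(Γ₁(N))` with nebentypus `χ` (necessarily odd if `f ≠ 0`) multiply by
the weight-one Eisenstein series `G = ∑_a χ(a) φ_a` (nebentypus `χ⁻¹`, explicit cyclotomic
`q`-expansion, nonzero).  Then `f G ∈ S₂(Γ₀(N))`, where Theorem A of P-INT is landed
(`Fermat.Agent.H22.exists_conj`), and `σ(f) = σ(f G) / σ(G)` is a cusp form by the integrality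
argument (INT-6/INT-8 ported to `Γ₁(N)`).  General `f` : decompose into nebentypus components.

Statements only; proofs in the modules named in the `subtasks` rows `DS-1a-*`.
-/

set_option autoImplicit false

open UpperHalfPlane CongruenceSubgroup ModularFormClass
open scoped MatrixGroups ModularForm

namespace Fermat.Agent.H6.DS

/-- (DS-1a-A1) the Eisenstein multiplier: for an odd character `χ` modulo `N` there is a nonzero
`G ∈ M₁(Γ₁(N))` with nebentypus `χ⁻¹` all of whose coefficientwise conjugates are again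
`q`-expansions of forms in `M₁(Γ₁(N))`. -/
def EisMultiplierStatement : Prop :=
  ∀ (N : ℕ) [NeZero N] (χ : DirichletCharacter ℂ N), χ (-1) = -1 →
    ∃ G : ModularForm (Gamma1 N) 1,
      (∃ n : ℕ, qCoeff G n ≠ 0) ∧
      Fermat.Agent.H20.DS.HasNebentypus 1 χ⁻¹ (⇑G) ∧
      ∀ σ : ℂ →+* ℂ, ∃ P : ModularForm (Gamma1 N) 1, ∀ n : ℕ, qCoeff P n = σ (qCoeff G n)

/-- (DS-1a-A2) the product of a cusp form with nebentypus `χ` and a modular form with nebentypus
`χ⁻¹` is a cusp form of weight two on `Γ₀(N)`. -/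
def NebenProductStatement : Prop :=
  ∀ (N : ℕ) [NeZero N] (χ : DirichletCharacter ℂ N) (f : CuspForm (Gamma1 N) 1)
    (G : ModularForm (Gamma1 N) 1),
    Fermat.Agent.H20.DS.HasNebentypus 1 χ (⇑f) →
    Fermat.Agent.H20.DS.HasNebentypus 1 χ⁻¹ (⇑G) →
    ∃ F : CuspForm (Gamma0 N) 2, ∀ z : ℍ, F z = f z * G z

/-- (DS-1a-A3) the division core: if `Q` and `P ≠ 0` are modular forms on `Γ₁(N)` whose
`q`-expansions are the conjugates of those of `H = f G` and `G`, then `Q / P` is a cusp form with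
`q`-expansion the conjugate of that of `f`. -/
def ConjDivisionStatement : Prop :=
  ∀ (N : ℕ) [NeZero N] (f : CuspForm (Gamma1 N) 1) (G P : ModularForm (Gamma1 N) 1)
    (H Q : ModularForm (Gamma1 N) 2) (σ : ℂ →+* ℂ),
    (∃ n : ℕ, qCoeff G n ≠ 0) →
    (∀ z : ℍ, H z = f z * G z) →
    (∀ n : ℕ, qCoeff P n = σ (qCoeff G n)) →
    (∀ n : ℕ, qCoeff Q n = σ (qCoeff H n)) →
    ∃ f' : CuspForm (Gamma1 N) 1, ∀ n : ℕ, qCoeff f' n = σ (qCoeff f n)

/-- (DS-1a-A4) `ConjStatement` for forms with nebentypus. -/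
def ConjNebenStatement : Prop :=
  ∀ (N : ℕ) [NeZero N] (χ : DirichletCharacter ℂ N) (f : CuspForm (Gamma1 N) 1),
    Fermat.Agent.H20.DS.HasNebentypus 1 χ (⇑f) → ∀ σ : ℂ →+* ℂ,
    ∃ f' : CuspForm (Gamma1 N) 1, ∀ n : ℕ, qCoeff f' n = σ (qCoeff f n)

/-- (DS-1a-A5) decomposition of `S₁(Γ₁(N))` into nebentypus components (diamond operators +
orthogonality of characters). -/
def NebenDecompStatement : Prop :=
  ∀ (N : ℕ) [NeZero N] (f : CuspForm (Gamma1 N) 1),
    ∃ (s : Finset (DirichletCharacter ℂ N)) (g : DirichletCharacter ℂ N → CuspForm (Gamma1 N) 1),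
      (∀ χ ∈ s, Fermat.Agent.H20.DS.HasNebentypus 1 χ (⇑(g χ))) ∧
      ∀ n : ℕ, qCoeff f n = ∑ χ ∈ s, qCoeff (g χ) n

end Fermat.Agent.H6.DS
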