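import Fermat.Agent.H6.DS.ConjNeben
import Fermat.Agent.H4.DS.EisMult
import Fermat.Agent.H80.DS.NebenProduct
import Fermat.Agent.H80.DS.NebenDecomp
import Fermat.Agent.H98.DS.EisCongrFinal

/-!
# P-DS, DS-1a : `ConjStatement`, unconditional

`q`-expansions of weight-one cusp forms on `Γ₁(N)` are stable under every ring endomorphism of
`ℂ`.  Assembly of the multiplier route:
`H4.DS.eisMultiplier` (A1), `H80.DS.nebenProduct` (A2), `H6.DS.conjDivision` (A3),
`H6.DS.conjNeben` (A4), `H80.DS.nebenDecomp` (A5), on top of block (2) (`H98.DS.phiForm_uncond`,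
`H98.DS.eisOneTransform_uncond`) and of Theorem A on `Γ₀(N)` (`H22.exists_conj`).
-/

set_option autoImplicit false

namespace Fermat.Agent.H6.DS

/-- (A1), unconditional. -/
theorem eisMultiplier_uncond : EisMultiplierStatement :=
  Fermat.Agent.H4.DS.eisMultiplier Fermat.Agent.H98.DS.phiForm_uncond
    Fermat.Agent.H98.DS.eisOneTransform_uncond

/-- (A4), unconditional: conjugates of weight-one cusp forms with nebentypus. -/
theorem conjNeben_uncond : ConjNebenStatement :=
  conjNeben eisMultiplier_uncond Fermat.Agent.H80.DS.nebenProduct conjDivision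

/-- **DS-1a.**  `Fermat.Agent.H20.DS.ConjStatement`, unconditional. -/
theorem conjStatement : Fermat.Agent.H20.DS.ConjStatement :=
  Fermat.Agent.H80.DS.conjStatement_of_conjNeben' conjNeben_uncond

end Fermat.Agent.H6.DS
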