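import Fermat.Agent.H6.DS.Interfaces
import Fermat.Agent.H20.DS.Interfaces

/-!
# P-DS block (2), second layer: from `CongruenceStatement` to `H20.DS.EisCongrStatement`

Extra statements needed for the architect's `EisCongrStatement`:
* `DepletionStatement` (DS-2H): the `N`-depletion `f♭ = ∑_{(n,N)=1} a_n qⁿ` is a cusp form of
  weight one on `Γ₁(N³)`, with the same nebentypus.
* `CoprimeIntegralStatement` (DS-2I): the Hecke relations propagate integrality from the `a_p`
  to all `a_n`, `(n, N) = 1`.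
-/

set_option autoImplicit false

open UpperHalfPlane CongruenceSubgroup ModularFormClass
open scoped MatrixGroups ModularForm

namespace Fermat.Agent.H6.DS

/-- (DS-2H) `N`-depletion: twist by the principal character modulo `N`,
`f♭(z) = ∑_{u mod N} c_u f(z + u/N)`, `c_u = N⁻¹ ∑_{m ∈ (ℤ/N)ˣ} e(-m u/N)`. -/
def DepletionStatement : Prop :=
  ∀ (N : ℕ) [NeZero N] (f : CuspForm (Gamma1 N) 1),
    ∃ f' : CuspForm (Gamma1 (N ^ 3)) 1,
      (∀ n : ℕ, qCoeff f' n = if n.Coprime N then qCoeff f n else 0) ∧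
      ∀ ε : DirichletCharacter ℂ N, Fermat.Agent.H20.DS.HasNebentypus 1 ε (⇑f) →
        Fermat.Agent.H20.DS.HasNebentypus 1
          (DirichletCharacter.changeLevel (Dvd.intro_left (N ^ 2) (by ring : N ^ 2 * N = N ^ 3)) ε)
          (⇑f')

/-- (DS-2I) integrality of the `a_n`, `(n, N) = 1`, from that of the `a_p` and `ε(p)`. -/
def CoprimeIntegralStatement : Prop :=
  ∀ (N : ℕ) (ε : ℕ → ℂ) (a : ℕ → ℂ), HeckeRel N ε a →
    (∀ p : ℕ, p.Prime → ¬ p ∣ N → IsIntegral ℤ (a p) ∧ IsIntegral ℤ (ε p)) →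
    ∀ n : ℕ, 0 < n → n.Coprime N → IsIntegral ℤ (a n)

end Fermat.Agent.H6.DS
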