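import Fermat.Agent.H6.DS.ConjInterfaces
import Fermat.Agent.H22.TheoremA

/-!
# P-DS, DS-1a-A3 : the division core `ConjDivisionStatement`

Ports of INT-6 (`H82.exists_charpoly`) and INT-8 (`H33.exists_cuspForm_of_integral`) from `Γ₀(N)`
to `Γ₁(N)`, and the Theorem-A style assembly with the interpolation data replaced by a given
multiplier `G` and given conjugates `P` of `G`, `Q` of `f G`.
-/

set_option autoImplicit false

open UpperHalfPlane ModularForm CongruenceSubgroup Filter Topology SlashInvariantForm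
open scoped MatrixGroups ModularForm Manifold

namespace Fermat.Agent.H6.DS

open Fermat.Agent.H33 Fermat.Agent.H82 Fermat.Agent.H22

noncomputable section

/-- **INT-6 for `Γ₁(N)`** (port of `Fermat.Agent.H82.exists_charpoly`). -/
theorem exists_charpoly_gamma1 (N : ℕ) [NeZero N] (k : ℤ) (f : CuspForm (Gamma1 N) k) :
    ∃ (μ : ℕ) (c : ℕ → ℍ → ℂ), 0 < μ ∧
      (∀ i < μ, ∃ g : CuspForm 𝒮ℒ (k * ((μ : ℤ) - (i : ℤ))), ⇑g = c i) ∧
      (⇑f) ^ μ + ∑ i ∈ Finset.range μ, c i * (⇑f) ^ i = 0 := by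
  let 𝒢 : Subgroup (GL (Fin 2) ℝ) := (Gamma1 N : Subgroup (GL (Fin 2) ℝ))
  refine ⟨Nat.card (𝒮ℒ ⧸ 𝒢.subgroupOf 𝒮ℒ),
    fun i => (-1 : ℂ) ^ (Nat.card (𝒮ℒ ⧸ 𝒢.subgroupOf 𝒮ℒ) - i) •
      esymmFun (ℋ := 𝒮ℒ) f (Nat.card (𝒮ℒ ⧸ 𝒢.subgroupOf 𝒮ℒ) - i), Nat.card_pos, ?_, ?_⟩
  · intro i hi
    have hn : 0 < Nat.card (𝒮ℒ ⧸ 𝒢.subgroupOf 𝒮ℒ) - i := Nat.sub_pos_of_lt hi
    have hw : k * ((Nat.card (𝒮ℒ ⧸ 𝒢.subgroupOf 𝒮ℒ) - i : ℕ) : ℤ) =
        k * ((Nat.card (𝒮ℒ ⧸ 𝒢.subgroupOf 𝒮ℒ) : ℤ) - (i : ℤ)) := by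
      rw [Nat.cast_sub hi.le]
    have key : ∀ (w w' : ℤ) (_ : w = w') (g : CuspForm 𝒮ℒ w), ∃ g' : CuspForm 𝒮ℒ w', ⇑g' = ⇑g := by
      rintro w w' rfl g
      exact ⟨g, rfl⟩
    obtain ⟨g', hg'⟩ := key _ _ hw
      ((-1 : ℂ) ^ (Nat.card (𝒮ℒ ⧸ 𝒢.subgroupOf 𝒮ℒ) - i) • esymmCuspForm 𝒮ℒ f hn)
    refine ⟨g', ?_⟩
    rw [hg']
    rfl
  · funext τ
    have := esymmFun_root 𝒮ℒ f τ
    simp only [Pi.add_apply, Pi.pow_apply, Finset.sum_apply, Pi.mul_apply, Pi.smul_apply,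
      smul_eq_mul, Pi.zero_apply]
    exact this


/-- **INT-8 for `Γ₁(N)`** (port of `Fermat.Agent.H33.exists_cuspForm_of_integral`). Holomorphic division by integrality plus the cusp condition: if `Q / P` satisfies
a monic polynomial equation whose lower coefficients are level-one cusp forms, then `Q / P` is a
cusp form. -/
theorem exists_cuspForm_of_integral_gamma1 (N : ℕ) [NeZero N] (k w : ℤ)
    (P : ModularForm (Gamma1 N) w) (Q : ModularForm (Gamma1 N) (w + k)) (hP : P ≠ 0)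
    (μ : ℕ) (hμ : 0 < μ) (c : ℕ → ℍ → ℂ)
    (hc : ∀ i < μ, ∃ g : CuspForm 𝒮ℒ (k * ((μ : ℤ) - (i : ℤ))), ⇑g = c i)
    (h : (⇑Q) ^ μ + ∑ i ∈ Finset.range μ, c i * (⇑Q) ^ i * (⇑P) ^ (μ - i) = 0) :
    ∃ h : CuspForm (Gamma1 N) k, ∀ z, h z * P z = Q z := by
  classical
  have _hμ' := hμ
  choose g hg using hc
  have hPfun : (⇑P : ℍ → ℂ) ≠ 0 := by
    intro h0
    apply hP
    ext τ
    simpa using congrFun h0 τ
  have hPmd : MDiff (⇑P : ℍ → ℂ) := ModularFormClass.holo P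
  have hQmd : MDiff (⇑Q : ℍ → ℂ) := ModularFormClass.holo Q
  have hU : IsOpen {z : ℂ | 0 < z.im} := isOpen_lt continuous_const Complex.continuous_im
  have hPd : DifferentiableOn ℂ (⇑P ∘ ofComplex) {z : ℂ | 0 < z.im} :=
    UpperHalfPlane.mdifferentiable_iff.mp hPmd
  have hQd : DifferentiableOn ℂ (⇑Q ∘ ofComplex) {z : ℂ | 0 < z.im} :=
    UpperHalfPlane.mdifferentiable_iff.mp hQmd
  have hcmd : ∀ i, i < μ → MDiff (c i) := fun i hi => by
    rw [← hg i hi]
    exact CuspFormClass.holo (g i hi)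
  have hccont : ∀ i, i < μ → Continuous (c i) := fun i hi => (hcmd i hi).continuous
  -- the pointwise equation
  have hpt : ∀ τ : ℍ, Q τ ^ μ + ∑ i ∈ Finset.range μ, c i τ * Q τ ^ i * P τ ^ (μ - i) = 0 := by
    intro τ
    have := congrFun h τ
    simpa using this
  -- the root equation where `P ≠ 0`
  have hroot : ∀ τ : ℍ, P τ ≠ 0 →
      (Q τ / P τ) ^ μ + ∑ i ∈ Finset.range μ, c i τ * (Q τ / P τ) ^ i = 0 := by
    intro τ hPτ
    have hPμ : P τ ^ μ ≠ 0 := pow_ne_zero _ hPτ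
    apply mul_left_cancel₀ hPμ
    rw [mul_zero, ← hpt τ, mul_add, Finset.mul_sum]
    congr 1
    · rw [div_pow, mul_div_cancel₀ _ hPμ]
    · apply Finset.sum_congr rfl
      intro i hi
      have hi' : i ≤ μ := (Finset.mem_range.mp hi).le
      have hsplit : P τ ^ μ = P τ ^ i * P τ ^ (μ - i) := by
        rw [← pow_add]
        congr 1
        omega
      rw [div_pow, hsplit]
      field_simp
  -- local boundedness of the quotient
  have hb : ∀ z₀ ∈ {z : ℂ | 0 < z.im}, ∃ B : ℝ, ∀ᶠ z in 𝓝[≠] z₀,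
      ‖(⇑Q ∘ ofComplex) z / (⇑P ∘ ofComplex) z‖ ≤ B := by
    intro z₀ hz₀
    set S : ℂ → ℝ := fun z => ∑ i ∈ Finset.range μ, ‖c i (ofComplex z)‖ with hS
    have hScont : ContinuousAt S z₀ := by
      apply tendsto_finsetSum
      intro i hi
      have hci : DifferentiableOn ℂ (c i ∘ ofComplex) {z : ℂ | 0 < z.im} :=
        UpperHalfPlane.mdifferentiable_iff.mp (hcmd i (Finset.mem_range.mp hi))
      exact ((hci.differentiableAt (hU.mem_nhds hz₀)).continuousAt).norm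
    have hSev : ∀ᶠ z in 𝓝 z₀, S z < S z₀ + 1 :=
      hScont.tendsto.eventually (eventually_lt_nhds (lt_add_one (S z₀)))
    refine ⟨max 1 (S z₀ + 1), ?_⟩
    have hUev : ∀ᶠ z in 𝓝[≠] z₀, z ∈ {z : ℂ | 0 < z.im} :=
      nhdsWithin_le_nhds (hU.mem_nhds hz₀)
    filter_upwards [eventually_ne_zero_of_mdiff hPmd hPfun z₀ hz₀, hUev,
      nhdsWithin_le_nhds hSev] with z hpz hzU hSz
    have hr := hroot (ofComplex z) hpz
    have hbound := norm_le_of_monic_eq μ (fun i => c i (ofComplex z)) _ hr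
    refine hbound.trans (max_le_max le_rfl hSz.le)
  obtain ⟨G, hGd, hGp⟩ := exists_differentiableOn_of_locally_bounded_div hU hPd hQd
    (fun z₀ hz₀ => eventually_ne_zero_of_mdiff hPmd hPfun z₀ hz₀) hb
  -- the quotient on `ℍ`
  set hh : ℍ → ℂ := fun τ => G (τ : ℂ) with hhdef
  have hhmd : MDiff hh := by
    rw [UpperHalfPlane.mdifferentiable_iff]
    refine hGd.congr fun z hz => ?_
    simp only [Function.comp_apply, hhdef]
    rw [ofComplex_apply_of_im_pos hz]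
  have hhcont : Continuous hh := hhmd.continuous
  have hhP : ∀ τ : ℍ, hh τ * P τ = Q τ := by
    intro τ
    have := hGp (τ : ℂ) τ.im_pos
    simpa [ofComplex_apply] using this
  have hdense : Dense {τ : ℍ | P τ ≠ 0} := dense_ne_zero_of_mdiff hPmd hPfun
  have hhdiv : ∀ τ : ℍ, P τ ≠ 0 → hh τ = Q τ / P τ := fun τ hτ =>
    eq_div_of_mul_eq hτ (hhP τ)
  -- the monic equation for `hh`
  have hheq : ∀ τ : ℍ, hh τ ^ μ + ∑ i ∈ Finset.range μ, c i τ * hh τ ^ i = 0 := by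
    have hcontL : Continuous fun τ : ℍ => hh τ ^ μ + ∑ i ∈ Finset.range μ, c i τ * hh τ ^ i := by
      refine (hhcont.pow μ).add (continuous_finsetSum _ fun i hi => ?_)
      exact (hccont i (Finset.mem_range.mp hi)).mul (hhcont.pow i)
    have := Continuous.ext_on hdense hcontL (continuous_const (y := (0 : ℂ)))
      (fun τ hτ => by
        show hh τ ^ μ + ∑ i ∈ Finset.range μ, c i τ * hh τ ^ i = 0
        rw [hhdiv τ hτ]
        exact hroot τ hτ)
    exact fun τ => congrFun this τ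
  -- slash invariance
  have hslash : ∀ γ ∈ ((Gamma1 N : Subgroup SL(2, ℤ)) : Subgroup (GL (Fin 2) ℝ)),
      hh ∣[k] γ = hh := by
    intro γ hγ
    have hPγ : (⇑P : ℍ → ℂ) ∣[w] γ = P := SlashInvariantFormClass.slash_action_eq P γ hγ
    have hQγ : (⇑Q : ℍ → ℂ) ∣[w + k] γ = Q := SlashInvariantFormClass.slash_action_eq Q γ hγ
    obtain ⟨γ', -, rfl⟩ := Subgroup.mem_map.mp hγ
    have e1 : hh ∣[k] γ' = hh ∣[k] (Matrix.SpecialLinearGroup.mapGL ℝ γ') := rfl
    have e2 : (⇑P : ℍ → ℂ) ∣[w] γ' = (⇑P : ℍ → ℂ) ∣[w] (Matrix.SpecialLinearGroup.mapGL ℝ γ') :=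
      rfl
    have e3 : (⇑Q : ℍ → ℂ) ∣[w + k] γ' =
        (⇑Q : ℍ → ℂ) ∣[w + k] (Matrix.SpecialLinearGroup.mapGL ℝ γ') := rfl
    have hQfun : (⇑Q : ℍ → ℂ) = hh * ⇑P := by
      funext τ
      exact (hhP τ).symm
    have hmul : (hh ∣[k] γ') * ⇑P = hh * ⇑P := by
      have h1 := mul_slash_SL2 k w γ' hh (⇑P)
      rw [← hQfun, add_comm k w, e3, hQγ, e2, hPγ] at h1
      rw [← h1, hQfun]
    have hcontL : Continuous (hh ∣[k] γ') := by
      rw [e1]
      exact (hhmd.slash k _).continuous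
    rw [← e1]
    refine Continuous.ext_on hdense hcontL hhcont ?_
    intro τ hτ
    have := congrFun hmul τ
    simp only [Pi.mul_apply] at this
    exact mul_right_cancel₀ hτ this
  -- vanishing at the cusps
  have hzero : ∀ γ : SL(2, ℤ), IsZeroAtImInfty (hh ∣[k] γ) := by
    intro γ
    have hx : ∀ τ : ℍ, ((hh ∣[k] γ) τ) ^ μ +
        ∑ i ∈ Finset.range μ, c i τ * ((hh ∣[k] γ) τ) ^ i = 0 := by
      intro τ
      have hd : denom γ τ ≠ 0 := denom_ne_zero γ τ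
      have hci : ∀ i ∈ Finset.range μ,
          c i τ = c i (γ • τ) * denom γ τ ^ (-(k * ((μ : ℤ) - (i : ℤ)))) := by
        intro i hi
        have hi' := Finset.mem_range.mp hi
        have hinv : (⇑(g i hi') : ℍ → ℂ) ∣[k * ((μ : ℤ) - (i : ℤ))] γ = ⇑(g i hi') :=
          SlashInvariantFormClass.slash_action_eq (g i hi') _ ⟨γ, rfl⟩
        have := congrFun hinv τ
        rw [SL_slash_apply, hg i hi'] at this
        exact this.symm
      have hE := hheq (γ • τ)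
      rw [SL_slash_apply]
      have hkey : (hh (γ • τ) * denom γ τ ^ (-k)) ^ μ +
          ∑ i ∈ Finset.range μ, c i τ * (hh (γ • τ) * denom γ τ ^ (-k)) ^ i =
          denom γ τ ^ (-(k * (μ : ℤ))) *
            (hh (γ • τ) ^ μ + ∑ i ∈ Finset.range μ, c i (γ • τ) * hh (γ • τ) ^ i) := by
        rw [mul_add, Finset.mul_sum]
        congr 1
        · rw [mul_pow, ← zpow_natCast (denom γ τ ^ (-k)) μ, ← zpow_mul, mul_comm, neg_mul]
        · apply Finset.sum_congr rfl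
          intro i hi
          rw [hci i hi, mul_pow, ← zpow_natCast (denom γ τ ^ (-k)) i, ← zpow_mul]
          have : denom γ τ ^ (-(k * (μ : ℤ))) =
              denom γ τ ^ (-(k * ((μ : ℤ) - (i : ℤ)))) * denom γ τ ^ (-k * (i : ℤ)) := by
            rw [← zpow_add₀ hd]
            congr 1
            ring
          rw [this]
          ring
      rw [hkey, hE, mul_zero]
    -- the coefficients tend to zero
    have hS0 : Tendsto (fun τ : ℍ => ∑ i ∈ Finset.range μ, ‖c i τ‖) atImInfty (𝓝 0) := by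
      have : Tendsto (fun τ : ℍ => ∑ i ∈ Finset.range μ, ‖c i τ‖) atImInfty
          (𝓝 (∑ _i ∈ Finset.range μ, (0 : ℝ))) := by
        apply tendsto_finsetSum
        intro i hi
        have hi' := Finset.mem_range.mp hi
        have hz : IsZeroAtImInfty (⇑(g i hi') : ℍ → ℂ) := CuspFormClass.zero_at_infty (g i hi')
        rw [hg i hi'] at hz
        have := hz.norm
        simpa using this
      simpa using this
    rw [IsZeroAtImInfty, ZeroAtFilter, Metric.tendsto_nhds]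
    intro ε hε
    have hεμ : 0 < min 1 (ε ^ μ) := lt_min one_pos (pow_pos hε μ)
    have hev : ∀ᶠ τ in atImInfty, ∑ i ∈ Finset.range μ, ‖c i τ‖ < min 1 (ε ^ μ) :=
      hS0.eventually (eventually_lt_nhds hεμ)
    filter_upwards [hev] with τ hτ
    rw [dist_zero_right]
    have h1 : ∑ i ∈ Finset.range μ, ‖c i τ‖ ≤ 1 := (hτ.trans_le (min_le_left _ _)).le
    have h2 := norm_pow_le_of_monic_eq μ (fun i => c i τ) _ (hx τ) h1
    have h3 : ‖(hh ∣[k] γ) τ‖ ^ μ < ε ^ μ := h2.trans_lt (hτ.trans_le (min_le_right _ _))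
    exact lt_of_pow_lt_pow_left₀ μ hε.le h3
  refine ⟨{ toFun := hh
            slash_action_eq' := hslash
            holo' := hhmd
            zero_at_cusps' := ?_ }, fun τ => hhP τ⟩
  intro c' hc'
  rw [Subgroup.IsArithmetic.isCusp_iff_isCusp_SL2Z] at hc'
  rw [OnePoint.isZeroAt_iff_forall_SL2Z hc']
  intro γ _
  exact hzero γ


end

/-! ### Niceness of forms on `Γ₁(N)` -/

lemma one_mem_strictPeriods_Gamma1' (N : ℕ) :
    (1 : ℝ) ∈ (Gamma1 N : Subgroup (GL (Fin 2) ℝ)).strictPeriods := by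
  rw [strictPeriods_Gamma1]
  exact AddSubgroup.mem_zmultiples 1

lemma nice_Gamma1 {N : ℕ} [NeZero N] {k : ℤ} (f : ModularForm (Gamma1 N) k) : Nice (⇑f) :=
  nice_of_modularForm (one_mem_strictPeriods_Gamma1' N) f

lemma nice_Gamma1_cusp {N : ℕ} [NeZero N] {k : ℤ} (f : CuspForm (Gamma1 N) k) : Nice (⇑f) :=
  nice_of_cuspForm (one_mem_strictPeriods_Gamma1' N) f

lemma qExpansion_eq_map_of_qCoeff {F F' : ℍ → ℂ} (σ : ℂ →+* ℂ)
    (h : ∀ n : ℕ, ModularFormClass.qCoeff F' n = σ (ModularFormClass.qCoeff F n)) :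
    qExpansion 1 F' = PowerSeries.map σ (qExpansion 1 F) := by
  ext n
  have := h n
  simpa [ModularFormClass.qCoeff] using this

/-- **DS-1a-A3.** The division core. -/
theorem conjDivision : ConjDivisionStatement := by
  intro N _ f G P H Q σ hG0 hH hP hQ
  classical
  obtain ⟨ν, c, hν, hc, hcf⟩ := exists_charpoly_gamma1 N 1 f
  have hnf : Nice (⇑f) := nice_Gamma1_cusp f
  have hnG : Nice (⇑G) := nice_Gamma1 G
  have hnP : Nice (⇑P) := nice_Gamma1 P
  have hnQ : Nice (⇑Q) := nice_Gamma1 Q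
  have hnc : ∀ i < ν, Nice (c i) := fun i hi => by
    obtain ⟨g, hg⟩ := hc i hi; rw [← hg]; exact nice_levelOne_cusp g
  have hHfun : (⇑H : ℍ → ℂ) = ⇑f * ⇑G := funext hH
  have hqP : qExpansion 1 (⇑P) = PowerSeries.map σ (qExpansion 1 (⇑G)) :=
    qExpansion_eq_map_of_qCoeff σ hP
  have hqQ : qExpansion 1 (⇑Q) =
      PowerSeries.map σ (qExpansion 1 (⇑f)) * PowerSeries.map σ (qExpansion 1 (⇑G)) := by
    rw [qExpansion_eq_map_of_qCoeff σ hQ, hHfun, qx_mul hnf hnG, map_mul]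
  have hqG0 : qExpansion 1 (⇑G) ≠ 0 := by
    obtain ⟨n, hn⟩ := hG0
    intro h0
    apply hn
    simp [ModularFormClass.qCoeff, h0]
  have hqP0 : qExpansion 1 (⇑P) ≠ 0 := by
    rw [hqP]
    exact fun h => hqG0 ((map_ringHom_eq_zero_iff σ _).1 h)
  have hP0 : P ≠ 0 := by
    rintro rfl
    apply hqP0
    show qExpansion 1 (0 : ℍ → ℂ) = 0
    exact qExpansion_zero 1
  -- conjugate the level-one coefficients
  have keyc : ∀ i, ∃ F' : ℍ → ℂ, i < ν →
      ((∃ g' : CuspForm 𝒮ℒ (1 * ((ν : ℤ) - (i : ℤ))), ⇑g' = F') ∧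
        qExpansion 1 F' = PowerSeries.map σ (qExpansion 1 (c i))) := by
    intro i
    by_cases hi : i < ν
    · obtain ⟨g, hg⟩ := hc i hi
      obtain ⟨g', hg'⟩ := levelOne_conj_cusp σ _ g
      exact ⟨⇑g', fun _ => ⟨⟨g', rfl⟩, by rw [hg', hg]⟩⟩
    · exact ⟨0, fun h => absurd h hi⟩
  choose c' hc' using keyc
  have hnc' : ∀ i < ν, Nice (c' i) := fun i hi => by
    obtain ⟨g, hg⟩ := (hc' i hi).1; rw [← hg]; exact nice_levelOne_cusp g
  -- the conjugated integrality equation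
  have hint' : (⇑Q) ^ ν + ∑ i ∈ Finset.range ν, c' i * (⇑Q) ^ i * (⇑P) ^ (ν - i) = 0 := by
    have hn : Nice ((⇑Q) ^ ν + ∑ i ∈ Finset.range ν, c' i * (⇑Q) ^ i * (⇑P) ^ (ν - i)) :=
      (hnQ.pow ν).add (Nice.sum _ _ fun i hi =>
        ((hnc' i (Finset.mem_range.1 hi)).mul (hnQ.pow i)).mul (hnP.pow _))
    apply hn.eq_zero_of_qExpansion_eq_zero
    rw [qx_add (hnQ.pow ν) (Nice.sum _ _ fun i hi =>
        ((hnc' i (Finset.mem_range.1 hi)).mul (hnQ.pow i)).mul (hnP.pow _)),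
      qx_pow hnQ, qx_sum _ _ fun i hi =>
        ((hnc' i (Finset.mem_range.1 hi)).mul (hnQ.pow i)).mul (hnP.pow _)]
    have hterm : ∀ i ∈ Finset.range ν,
        qExpansion 1 (c' i * (⇑Q) ^ i * (⇑P) ^ (ν - i)) =
          PowerSeries.map σ
            (qExpansion 1 (⇑G) ^ ν * (qExpansion 1 (c i) * qExpansion 1 (⇑f) ^ i)) := by
      intro i hi
      have hi' := Finset.mem_range.1 hi
      rw [qx_mul ((hnc' i hi').mul (hnQ.pow i)) (hnP.pow _), qx_mul (hnc' i hi') (hnQ.pow i),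
        qx_pow hnQ, qx_pow hnP, hqQ, hqP, (hc' i hi').2]
      simp only [map_mul, map_pow]
      have : ν = i + (ν - i) := by omega
      conv_rhs => rw [this]
      ring
    rw [Finset.sum_congr rfl hterm, hqQ, ← map_sum, ← map_mul, ← map_pow, ← map_add]
    have h0 : (qExpansion 1 (⇑f) * qExpansion 1 (⇑G)) ^ ν +
        ∑ i ∈ Finset.range ν,
          qExpansion 1 (⇑G) ^ ν * (qExpansion 1 (c i) * qExpansion 1 (⇑f) ^ i)
          = qExpansion 1 (⇑G) ^ ν *
            qExpansion 1 ((⇑f) ^ ν + ∑ i ∈ Finset.range ν, c i * (⇑f) ^ i) := by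
      rw [qx_add (hnf.pow ν) (Nice.sum _ _ fun i hi =>
          (hnc i (Finset.mem_range.1 hi)).mul (hnf.pow i)),
        qx_pow hnf, qx_sum _ _ fun i hi => (hnc i (Finset.mem_range.1 hi)).mul (hnf.pow i),
        mul_add, Finset.mul_sum, mul_pow]
      congr 1
      · ring
      · refine Finset.sum_congr rfl fun i hi => ?_
        rw [qx_mul (hnc i (Finset.mem_range.1 hi)) (hnf.pow i), qx_pow hnf]
    rw [h0, hcf, qExpansion_zero, mul_zero, map_zero]
  -- divide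
  obtain ⟨h, hh⟩ := exists_cuspForm_of_integral_gamma1 N 1 1 P
    (ModularForm.mcast (by norm_num) Q) hP0 ν hν c' (fun i hi => (hc' i hi).1) hint'
  refine ⟨h, fun n => ?_⟩
  have hmul : (⇑h : ℍ → ℂ) * ⇑P = ⇑Q := funext hh
  have := congrArg (qExpansion 1) hmul
  rw [qx_mul (nice_Gamma1_cusp h) hnP, hqQ, hqP] at this
  have hne : PowerSeries.map σ (qExpansion 1 (⇑G)) ≠ 0 := by rw [← hqP]; exact hqP0
  have hfin := mul_right_cancel₀ hne this
  have := congrArg (PowerSeries.coeff n) hfin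
  simpa [ModularFormClass.qCoeff] using this

end Fermat.Agent.H6.DS
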