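import Fermat.Agent.H6.DS.ConjDivision
import Fermat.Agent.H98.DS.Congruence

/-!
# P-DS, DS-1a-A4 : `ConjNebenStatement` from the Eisenstein multiplier, the product and the
division core, using the landed Theorem A on `Γ₀(N)` (`Fermat.Agent.H22.exists_conj`).
-/

set_option autoImplicit false

open UpperHalfPlane ModularForm CongruenceSubgroup
open scoped MatrixGroups ModularForm Manifold

namespace Fermat.Agent.H6.DS

open Fermat.Agent.H22

lemma gamma1_map_le_gamma0_map (N : ℕ) :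
    (Gamma1 N : Subgroup (GL (Fin 2) ℝ)) ≤ (Gamma0 N : Subgroup (GL (Fin 2) ℝ)) :=
  Subgroup.map_mono (Gamma1_in_Gamma0 N)

/-- A form with an even nebentypus of weight one vanishes. -/
lemma eq_zero_of_hasNebentypus_even {N : ℕ} (χ : DirichletCharacter ℂ N) (f : ℍ → ℂ)
    (hf : Fermat.Agent.H20.DS.HasNebentypus 1 χ f) (hχ : χ (-1) ≠ -1) : f = 0 := by
  funext z
  have hmem : (-1 : SL(2, ℤ)) ∈ Gamma0 N := by
    rw [Gamma0_mem]
    simp
  have h := congrFun (hf (-1) hmem) z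
  rw [SL_slash_apply] at h
  have hd : denom ((-1 : SL(2, ℤ)) : GL (Fin 2) ℝ) z = -1 := by
    simp [denom]
  have hz : ((-1 : SL(2, ℤ)) • z : ℍ) = z := by
    ext
    simp [UpperHalfPlane.coe_specialLinearGroup_apply]
  have he : (((((-1 : SL(2, ℤ)) : Matrix (Fin 2) (Fin 2) ℤ) 1 1 : ℤ)) : ZMod N) = -1 := by
    simp
  rw [he] at h
  simp only [Pi.smul_apply, smul_eq_mul, Pi.zero_apply] at h ⊢
  rw [hz] at h
  have hd' : denom (-1 : SL(2, ℤ)) z = -1 := by
    simpa using hd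
  rw [hd'] at h
  have h2 : (χ (-1) + 1) * f z = 0 := by
    have h3 : f z * (-1 : ℂ) ^ (-(1 : ℤ)) = - f z := by
      rw [zpow_neg, zpow_one]
      simp
    rw [h3] at h
    linear_combination -h
  rcases mul_eq_zero.1 h2 with h4 | h4
  · exact absurd (eq_neg_of_add_eq_zero_left h4) hχ
  · exact h4

/-- **DS-1a-A4.** -/
theorem conjNeben (h1 : EisMultiplierStatement) (h2 : NebenProductStatement)
    (h3 : ConjDivisionStatement) : ConjNebenStatement := by
  intro N _ χ f hf σ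
  by_cases hodd : χ (-1) = -1
  · obtain ⟨G, hG0, hGneb, hGσ⟩ := h1 N χ hodd
    obtain ⟨P, hP⟩ := hGσ σ
    obtain ⟨F, hF⟩ := h2 N χ f G hf hGneb
    obtain ⟨Q0, hQ0⟩ := exists_conj N 2 σ F
    let H : ModularForm (Gamma1 N) 2 :=
      Fermat.Agent.H98.DS.modRestr (gamma1_map_le_gamma0_map N) (ModularFormClass.modularForm F)
    let Q : ModularForm (Gamma1 N) 2 :=
      Fermat.Agent.H98.DS.modRestr (gamma1_map_le_gamma0_map N) (ModularFormClass.modularForm Q0)
    refine h3 N f G P H Q σ hG0 (fun z => hF z) hP (fun n => ?_)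
    have hQ : (⇑Q : ℍ → ℂ) = ⇑Q0 := rfl
    have hH : (⇑H : ℍ → ℂ) = ⇑F := rfl
    simp only [ModularFormClass.qCoeff, hQ, hH, hQ0, PowerSeries.coeff_map]
  · have h0 : (⇑f : ℍ → ℂ) = 0 := eq_zero_of_hasNebentypus_even χ _ hf hodd
    refine ⟨0, fun n => ?_⟩
    have hz : (⇑(0 : CuspForm (Gamma1 N) 1) : ℍ → ℂ) = 0 := rfl
    simp only [ModularFormClass.qCoeff, h0, hz, qExpansion_zero, map_zero]

end Fermat.Agent.H6.DS
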