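import Fermat.Agent.H6.DS.Interfaces2

/-!
# P-DS row DS-2I: the Hecke relations propagate integrality to all `a_n`, `(n, N) = 1`
-/

set_option autoImplicit false

namespace Fermat.Agent.H6.DS

/-- **DS-2I.** -/
theorem coprimeIntegral : CoprimeIntegralStatement := by
  intro N ε a hrel hint n
  induction n using Nat.strong_induction_on with
  | _ n ih =>
    intro hn hcop
    rcases Nat.lt_or_ge n 2 with h | h
    · have h1 : n = 1 := by omega
      subst h1
      rw [hrel.1]
      exact isIntegral_one
    · obtain ⟨p, hp, hpn⟩ := Nat.exists_prime_and_dvd (by omega : n ≠ 1)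
      obtain ⟨m, rfl⟩ := hpn
      have hpN : ¬ p ∣ N := by
        intro hdvd
        have h1 : p ∣ Nat.gcd (p * m) N := Nat.dvd_gcd (Dvd.intro m rfl) hdvd
        rw [Nat.Coprime] at hcop
        rw [hcop] at h1
        exact hp.one_lt.ne' (Nat.dvd_one.mp h1)
      have hm0 : 0 < m := by
        rcases Nat.eq_zero_or_pos m with h0 | h0
        · subst h0
          simp at hn
        · exact h0
      have hmlt : m < p * m := by
        have := hp.two_le
        nlinarith
      have hmcop : m.Coprime N := Nat.Coprime.coprime_mul_left hcop
      have e := hrel.2 p hp hpN m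
      have e' : a (p * m) = a p * a m - ε p * (if p ∣ m then a (m / p) else 0) := by
        linear_combination e
      rw [e']
      refine IsIntegral.sub ((hint p hp hpN).1.mul (ih m hmlt hm0 hmcop))
        ((hint p hp hpN).2.mul ?_)
      split_ifs with hd
      · obtain ⟨k, rfl⟩ := hd
        have hk0 : 0 < k := by
          rcases Nat.eq_zero_or_pos k with h0 | h0
          · subst h0
            simp at hm0
          · exact h0
        rw [Nat.mul_div_cancel_left k hp.pos]
        have hklt : k < p * (p * k) := by
          have := hp.two_le
          nlinarith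
        exact ih k hklt hk0 (Nat.Coprime.coprime_mul_left hmcop)
      · exact isIntegral_zero

end Fermat.Agent.H6.DS
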